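/-
Fermat/Agent/MAZ/A2Gm19/Main.lean  (helper19)

Programme MAZ (S15), brick (A2)-CONCRETE: **`|G_k| ≤ |G_k^{I_p}|²`** for `G_k = J₀(p)[r^k]_m`,
`r ≠ p`, `I_p` the inertia group of any place `Ap` of `ℚ̄` over `p`.

= the hypothesis `h1` of `FinAbs19.eisenstein_fin_final` / `SSelInst97.card_selF_le_final`.

Inputs (all on main, unconditional):
* helper5's `InertiaInv5.card_le_card_inv_inertia_sq` (TAME-r + (A2)-abstract);
* unipotence of inertia at `p ∥ p` on prime-to-`p` torsion of `J₀(p)`: `ES.N34.IfaceN4.InertiaTors`,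
  proved by the chain of S34 (`inertiaTors_of_chain topStep hlvl descStep_chain S34.numStep12`);
* smoothness of `J₀(p)(ℚ̄)` (`KumFlat97.isSmooth_JZero`), finiteness of `J₀(p)[r^k]`.
-/
import Mathlib
import Fermat.Agent.MAZ.FinAbs19.SFin
import Fermat.Agent.MAZ.InertiaInv5.Spec
import Fermat.Agent.MAZ.KumFlat97.K2JZero
import Fermat.Agent.S34

set_option autoImplicit false
set_option linter.unusedSectionVars false
set_option linter.unusedVariables false
set_option linter.style.haveILetI false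

open AlgebraicCurve ModularCurve

noncomputable section

namespace Fermat.Agent.MAZ.A2Gm19

open Fermat.Agent.Flat44 Fermat.Agent.MAZ.SelCoh42 Fermat.Agent.MAZ.FlatCond42
open Fermat.Agent.MAZ.FinAbs19

/-- **Unipotence of inertia on prime-to-`q` torsion** (`q ∥ N`), unconditional (the chain of S34). -/
theorem inertiaTors : Fermat.Agent.ES.N34.IfaceN4.InertiaTors :=
  Fermat.Agent.ES.N34.IfaceN4.inertiaTors_of_chain
    Fermat.Agent.ES.N34.TorsionInertia12.topStep
    Fermat.Agent.ES.N34.LvlN17.hlvl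
    Fermat.Agent.ES.N34.DescN1.descStep_chain
    Fermat.Agent.S34.numStep12

variable (p : ℕ) [NeZero p]

/-- A Galois-stable subgroup of a smooth module is smooth. -/
theorem isSmooth_sub {V : Type} [AddCommGroup V] [DistribMulAction GQ V]
    (hsm : IsSmooth galLevel V) (T : StableSub GQ V) : IsSmooth galLevel T.W := by
  intro x
  obtain ⟨U, hU, h⟩ := hsm x.1
  exact ⟨U, hU, fun s hs => Subtype.ext (h s hs)⟩

/-- `G_k` is finite. -/
theorem finite_Gm (r : ℕ) (hr : r.Prime) (S : Finset ℕ) (k : ℕ) :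
    Finite (GmStable p r S k).W := by
  haveI := finite_rpow_torsion p r hr k
  refine Finite.of_injective
    (fun y : (GmStable p r S k).W => (⟨y.1, y.2.1⟩ : {x : JZero p // r ^ k • x = 0})) ?_
  intro a b h
  have h' : (a : JZero p) = (b : JZero p) := Subtype.mk.inj h
  exact Subtype.ext h'

/-- Inertia at `p` is unipotent of level 2 on `J₀(p)[r ^ k]`, `r ≠ p`. -/
theorem unipotent_on_rpow_torsion (hp : p.Prime) (r : ℕ) (hr : r.Prime) (hpr : p ≠ r) (k : ℕ)
    (Ap : ValuationSubring Qb) (hAp : Ap.LiesOverPrime p) (τ : GQ)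
    (hτ : τ ∈ Ap.inertiaSubgroupIn ℚ) (y : JZero p) (hy : r ^ k • y = 0) :
    τ • τ • y + y = τ • y + τ • y := by
  have hp2 : ¬ p ^ 2 ∣ p := by
    intro h
    have h1 : p ^ 2 ≤ p := Nat.le_of_dvd hp.pos h
    have h2 := hp.two_le
    nlinarith
  have hpm : ¬ p ∣ r ^ k := fun h =>
    hpr ((Nat.prime_dvd_prime_iff_eq hp hr).1 (hp.dvd_of_dvd_pow h))
  exact inertiaTors p p hp (dvd_refl p) hp2 Ap hAp τ hτ (r ^ k) hpm y hy

/-- **(A2) for `G_k`**: `|G_k| ≤ |G_k^{I_p}|²`. -/
theorem card_Gm_le_card_inv_inertia_sq (hp : p.Prime) (r : ℕ) (hr : r.Prime) (hpr : p ≠ r)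
    (S : Finset ℕ) (k : ℕ) (Ap : ValuationSubring Qb) (hAp : Ap.LiesOverPrime p) :
    Nat.card (GmStable p r S k).W ≤
      Nat.card (Inv (Ap.inertiaSubgroupIn ℚ) (GmStable p r S k).W) ^ 2 := by
  haveI : Fact p.Prime := ⟨hp⟩
  haveI : Fact r.Prime := ⟨hr⟩
  haveI : Finite (GmStable p r S k).W := finite_Gm p r hr S k
  refine Fermat.Agent.MAZ.InertiaInv5.card_le_card_inv_inertia_sq p r hpr
    (isSmooth_sub (Fermat.Agent.MAZ.KumFlat97.isSmooth_JZero p) (GmStable p r S k))
    ⟨k, fun x => Subtype.ext x.2.1⟩ Ap hAp ?_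
  intro τ hτ x
  apply Subtype.ext
  exact unipotent_on_rpow_torsion p hp r hr hpr k Ap hAp τ hτ x.1 x.2.1

end Fermat.Agent.MAZ.A2Gm19
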